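import Mathlib
import Fermat.Agent.LT.T7.H305.MatchCut

/-!
# Row LT, tower T7, leaf C2.7.10 `GoodSetC305` (registry row 2574) -- helper532

OFF-MAIN.  `goodSetC532 (K K') : H305.GoodSetC305 K K'`, VERBATIM against
`LT/T7/H305/MatchCut.lean` (helper305@56ddcdc02, sha256 0f302b81), unconditional.

Proof.  An element of a number field is integral at almost all finite places
(`HeightOneSpectrum.Support.finite`), a non-zero element is a unit at almost all finite places;
every finite place of `K'` lies over a finite place of `K` (the contraction of the prime ideal),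
and finitely many places of `K'` lie over a given place of `K` (`Ideal.finite_factors`).
-/

set_option autoImplicit false
set_option linter.unusedSectionVars false

open IsDedekindDomain NumberField

namespace Fermat.Agent.LT.T7.H532

open Fermat.Agent.LT Fermat.Agent.LT.T7 Fermat.Agent.LT.T7.H305

section OneField

variable {K : Type} [Field K] [NumberField K]

/-- An element of `K` is integral at almost all finite places. -/
theorem finite_not_integral532 (x : K) :
    {v : HeightOneSpectrum (𝓞 K) |
      ¬ Valued.v (algebraMap K (v.adicCompletion K) x) ≤ 1}.Finite := by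
  refine (HeightOneSpectrum.Support.finite (𝓞 K) x).subset ?_
  intro v hv
  simp only [Set.mem_ofPred_eq, not_le] at hv
  have h := HeightOneSpectrum.valuedAdicCompletion_eq_valuation' v x
  show 1 < v.valuation K x
  rw [← h]
  exact hv

/-- A non-zero element of `K` is a unit at almost all finite places. -/
theorem finite_not_unit532 {x : K} (hx : x ≠ 0) :
    {v : HeightOneSpectrum (𝓞 K) |
      Valued.v (algebraMap K (v.adicCompletion K) x) ≠ 1}.Finite := by
  refine ((finite_not_integral532 x).union (finite_not_integral532 x⁻¹)).subset ?_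
  intro v hv
  simp only [Set.mem_ofPred_eq] at hv
  by_contra hcon
  simp only [Set.mem_union, Set.mem_ofPred_eq, not_or, not_not] at hcon
  obtain ⟨h1, h2⟩ := hcon
  apply hv
  have hx' : algebraMap K (v.adicCompletion K) x ≠ 0 := by
    intro h0
    exact hx ((map_eq_zero _).mp h0)
  have hv0 : Valued.v (algebraMap K (v.adicCompletion K) x) ≠ 0 :=
    (Valuation.ne_zero_iff _).mpr hx'
  rw [map_inv₀, map_inv₀] at h2
  have h3 : 1 ≤ Valued.v (algebraMap K (v.adicCompletion K) x) := by
    by_contra hlt
    rw [not_le] at hlt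
    have : 1 < (Valued.v (algebraMap K (v.adicCompletion K) x))⁻¹ :=
      (one_lt_inv₀ (zero_lt_iff.mpr hv0)).mpr hlt
    exact absurd h2 (not_le.mpr this)
  exact le_antisymm h1 h3

/-- The entries of the image of `γ` in `GL₂(K_v)`. -/
theorem locG_apply532 (v : HeightOneSpectrum (𝓞 K)) (γ : GL (Fin 2) K) (i j : Fin 2) :
    ((locG305 v γ : GL (Fin 2) (v.adicCompletion K)) :
        Matrix (Fin 2) (Fin 2) (v.adicCompletion K)) i j
      = algebraMap K (v.adicCompletion K) ((γ : Matrix (Fin 2) (Fin 2) K) i j) := rfl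

/-- The entries of the inverse of the image of `γ` in `GL₂(K_v)`. -/
theorem locG_inv_apply532 (v : HeightOneSpectrum (𝓞 K)) (γ : GL (Fin 2) K) (i j : Fin 2) :
    (((locG305 v γ)⁻¹ : GL (Fin 2) (v.adicCompletion K)) :
        Matrix (Fin 2) (Fin 2) (v.adicCompletion K)) i j
      = algebraMap K (v.adicCompletion K) (((γ⁻¹ : GL (Fin 2) K) :
          Matrix (Fin 2) (Fin 2) K) i j) := by
  rw [← map_inv]
  rfl

/-- The discriminant of the image of `γ` is the image of the discriminant. -/
theorem disc_locG532 (v : HeightOneSpectrum (𝓞 K)) (γ : GL (Fin 2) K) :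
    T6.disc (locG305 v γ) = algebraMap K (v.adicCompletion K) (T6.disc γ) := by
  unfold T6.disc
  rw [Matrix.trace_fin_two, Matrix.det_fin_two, Matrix.trace_fin_two, Matrix.det_fin_two]
  simp only [locG_apply532, map_sub, map_mul, map_pow, map_add, map_ofNat]

/-- Integral entries (of the matrix and of its inverse) give `InU 0`. -/
theorem inU_of_integral532 (v : HeightOneSpectrum (𝓞 K)) (γ : GL (Fin 2) K)
    (h : ∀ i j : Fin 2,
      Valued.v (algebraMap K (v.adicCompletion K) ((γ : Matrix (Fin 2) (Fin 2) K) i j)) ≤ 1 ∧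
      Valued.v (algebraMap K (v.adicCompletion K)
        (((γ⁻¹ : GL (Fin 2) K) : Matrix (Fin 2) (Fin 2) K) i j)) ≤ 1) :
    T6.InU 0 (locG305 v γ) := by
  have hone : ∀ i j : Fin 2,
      Valued.v ((1 : Matrix (Fin 2) (Fin 2) (v.adicCompletion K)) i j) ≤ 1 := by
    intro i j
    rw [Matrix.one_apply]
    split_ifs
    · rw [map_one]
    · rw [map_zero]; exact zero_le_one
  intro i j
  have he : WithZero.exp (-((0 : ℕ) : ℤ)) = (1 : T6.Γ₀) := by
    simp
  rw [he]
  refine ⟨?_, ?_⟩
  · rw [locG_apply532]
    exact le_trans (Valuation.map_sub _ _ _) (max_le (h i j).1 (hone i j))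
  · rw [locG_inv_apply532]
    exact le_trans (Valuation.map_sub _ _ _) (max_le (h i j).2 (hone i j))

/-- The places where `γ` is not integral form a finite set. -/
theorem finite_not_inU532 (γ : GL (Fin 2) K) :
    {v : HeightOneSpectrum (𝓞 K) | ¬ T6.InU 0 (locG305 v γ)}.Finite := by
  have hfin : (⋃ i : Fin 2, ⋃ j : Fin 2,
      ({v : HeightOneSpectrum (𝓞 K) | ¬ Valued.v (algebraMap K (v.adicCompletion K)
          ((γ : Matrix (Fin 2) (Fin 2) K) i j)) ≤ 1} ∪
        {v : HeightOneSpectrum (𝓞 K) | ¬ Valued.v (algebraMap K (v.adicCompletion K)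
          (((γ⁻¹ : GL (Fin 2) K) : Matrix (Fin 2) (Fin 2) K) i j)) ≤ 1})).Finite :=
    Set.finite_iUnion fun i => Set.finite_iUnion fun j =>
      (finite_not_integral532 _).union (finite_not_integral532 _)
  refine hfin.subset ?_
  intro v hv
  simp only [Set.mem_ofPred_eq] at hv
  by_contra hcon
  apply hv
  apply inU_of_integral532
  intro i j
  simp only [Set.mem_iUnion, Set.mem_union, Set.mem_ofPred_eq, not_exists, not_or, not_not]
    at hcon
  exact hcon i j

/-- The places where an elliptic `γ` is not good form a finite set. -/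
theorem finite_not_good532 (γ : GL (Fin 2) K) (hγ : T6.IsEll γ) :
    {v : HeightOneSpectrum (𝓞 K) |
      ¬ (T6.InU 0 (locG305 v γ) ∧ Valued.v (T6.disc (locG305 v γ)) = 1)}.Finite := by
  have hd : T6.disc γ ≠ 0 := hγ.1.ne_zero
  refine ((finite_not_inU532 γ).union (finite_not_unit532 hd)).subset ?_
  intro v hv
  simp only [Set.mem_ofPred_eq, not_and_or] at hv
  rcases hv with hv | hv
  · exact Or.inl hv
  · right
    simp only [Set.mem_ofPred_eq]
    rw [← disc_locG532]
    exact hv

end OneField

section TwoFields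

variable (K K' : Type) [Field K] [NumberField K] [Field K'] [NumberField K'] [Algebra K K']

omit [NumberField K] [NumberField K'] in
/-- The coercion of the image of an integer of `K` in the integers of `K'`. -/
theorem coe_algebraMap532 (x : 𝓞 K) :
    ((algebraMap (𝓞 K) (𝓞 K') x : 𝓞 K') : K') = algebraMap K K' (x : K) := rfl

/-- The place of `K` under a place of `K'`. -/
noncomputable def under532 (w : HeightOneSpectrum (𝓞 K')) : HeightOneSpectrum (𝓞 K) where
  asIdeal := w.asIdeal.comap (algebraMap (𝓞 K) (𝓞 K'))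
  isPrime := Ideal.comap_isPrime _ _
  ne_bot := fun h => w.ne_bot (Ideal.eq_bot_of_comap_eq_bot h)

/-- The equation lemmas of `under532`, realised in the defining module (kernel-checker collision
rule of the row). -/
theorem under532_eqns_realised : True := by
  have _h0 := @under532.eq_def
  have _h1 := @under532.eq_1
  trivial

theorem placeOver_under532 (w : HeightOneSpectrum (𝓞 K')) :
    PlaceOver K K' (under532 K K' w) w := by
  intro x y hxy
  have hy : y = algebraMap (𝓞 K) (𝓞 K') x := by
    apply RingOfIntegers.ext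
    rw [hxy]
    rfl
  rw [hy]
  exact Ideal.mem_comap

/-- Finitely many places of `K'` lie over a place of `K`. -/
theorem finite_placeOver532 (v : HeightOneSpectrum (𝓞 K)) :
    {w : HeightOneSpectrum (𝓞 K') | PlaceOver K K' v w}.Finite := by
  have hne : v.asIdeal.map (algebraMap (𝓞 K) (𝓞 K')) ≠ 0 := by
    obtain ⟨x, hx, hx0⟩ := Submodule.exists_mem_ne_zero_of_ne_bot v.ne_bot
    intro h0
    have hmem : algebraMap (𝓞 K) (𝓞 K') x ∈ v.asIdeal.map (algebraMap (𝓞 K) (𝓞 K')) :=
      Ideal.mem_map_of_mem _ hx
    rw [h0] at hmem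
    have hz : algebraMap (𝓞 K) (𝓞 K') x = 0 := hmem
    have hz' : algebraMap K K' (x : K) = 0 := by
      rw [← coe_algebraMap532, hz]
      rfl
    have : (x : K) = 0 := (map_eq_zero _).mp hz'
    exact hx0 (RingOfIntegers.ext this)
  refine (Ideal.finite_factors hne).subset ?_
  intro w hw
  simp only [Set.mem_ofPred_eq] at hw ⊢
  rw [Ideal.dvd_iff_le, Ideal.map_le_iff_le_comap]
  intro x hx
  rw [Ideal.mem_comap]
  exact (hw x (algebraMap (𝓞 K) (𝓞 K') x) (coe_algebraMap532 K K' x)).mp hx

open Classical in
/-- **LEAF C2.7.10 = GOOD-SET** (registry row 2574), VERBATIM. -/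
theorem goodSetC532 : GoodSetC305 K K' := by
  intro γ δ hγ T
  -- the bad places of `γ` and of `δ`
  set Bγ : Finset (HeightOneSpectrum (𝓞 K)) := (finite_not_good532 γ hγ).toFinset with hBγ
  set Bδ : Finset (HeightOneSpectrum (𝓞 K')) := (finite_not_inU532 δ).toFinset with hBδ
  set S : Finset (HeightOneSpectrum (𝓞 K)) := T ∪ Bγ ∪ Bδ.image (under532 K K') with hS
  have hfin : (⋃ v ∈ (S : Set (HeightOneSpectrum (𝓞 K))),
      {w : HeightOneSpectrum (𝓞 K') | PlaceOver K K' v w}).Finite :=
    Set.Finite.biUnion S.finite_toSet fun v _ => finite_placeOver532 K K' v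
  refine ⟨S, hfin.toFinset, ?_, ?_, ?_, ?_⟩
  · intro v hv
    rw [hS]
    exact Finset.mem_union_left _ (Finset.mem_union_left _ hv)
  · intro w
    rw [Set.Finite.mem_toFinset]
    simp only [Set.mem_iUnion, Set.mem_ofPred_eq, Finset.mem_coe, exists_prop]
  · intro v hv
    by_contra hcon
    apply hv
    rw [hS]
    refine Finset.mem_union_left _ (Finset.mem_union_right _ ?_)
    rw [hBγ, Set.Finite.mem_toFinset]
    exact hcon
  · intro w hw
    by_contra hcon
    apply hw
    rw [Set.Finite.mem_toFinset]
    simp only [Set.mem_iUnion, Set.mem_ofPred_eq, Finset.mem_coe, exists_prop]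
    refine ⟨under532 K K' w, ?_, placeOver_under532 K K' w⟩
    rw [hS]
    refine Finset.mem_union_right _ (Finset.mem_image.mpr ⟨w, ?_, rfl⟩)
    rw [hBδ, Set.Finite.mem_toFinset]
    exact hcon

end TwoFields

end Fermat.Agent.LT.T7.H532
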